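/-
S18 / Route K / b2, assembly piece A1 = `PolyInstStatement` (helper693).  Mathlib-only.

Ring-theoretic facts about `R[X]`, `R` a DVR with uniformiser `w`:
`C w` is prime, `R[X]/(w) ≅ k'[X]` and `R[X][1/w] ≅ E[X]` are PIDs, positive integers are units
of `R[X][1/w]` (char 0), `X - C c` is prime, not associated to `C w`, `(w, X - c)` is maximal,
`R[X]/(X - c) ≅ R` is a PID, and `X - c' ∈ (w, X - c)` forces `c ≡ c' mod w`.
-/
import Mathlib

set_option autoImplicit false
set_option linter.style.haveILetI false

namespace Fermat.Agent.S18.B12.H693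

open Polynomial IsLocalRing

section

variable {R : Type*} [CommRing R] [IsDomain R] [IsDiscreteValuationRing R]

/-- `C w` is prime in `R[X]`. -/
theorem prime_C_uniformizer {w : R} (hw : Irreducible w) : Prime (C w : R[X]) :=
  Polynomial.prime_C_iff.mpr hw.prime

theorem span_uniformizer_isMaximal {w : R} (hw : Irreducible w) :
    (Ideal.span {w}).IsMaximal := by
  rw [← hw.maximalIdeal_eq]
  infer_instance

/-- `R[X] ⧸ (C w)` is a PID. -/
theorem isPrincipalIdealRing_quotient_C_uniformizer {w : R} (hw : Irreducible w) :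
    IsPrincipalIdealRing (R[X] ⧸ Ideal.span {(C w : R[X])}) := by
  haveI := span_uniformizer_isMaximal hw
  letI : Field (R ⧸ Ideal.span {w}) := Ideal.Quotient.field _
  let e : (R ⧸ Ideal.span {w})[X] ≃+* R[X] ⧸ (Ideal.span {w}).map (C : R →+* R[X]) :=
    Ideal.polynomialQuotientEquivQuotientPolynomial (Ideal.span {w})
  have hmap : (Ideal.span {w}).map (C : R →+* R[X]) = Ideal.span {C w} := by
    rw [Ideal.map_span, Set.image_singleton]
  let e' : R[X] ⧸ (Ideal.span {w}).map (C : R →+* R[X]) ≃+* R[X] ⧸ Ideal.span {(C w : R[X])} :=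
    Ideal.quotEquivOfEq hmap
  exact IsPrincipalIdealRing.of_surjective (e.trans e').toRingHom (e.trans e').surjective

/-- Inverting the uniformiser of a DVR gives its fraction field. -/
theorem isFractionRing_away_uniformizer {w : R} (hw : Irreducible w) :
    IsFractionRing R (Localization.Away w) := by
  refine IsLocalization.of_le (Submonoid.powers w) (nonZeroDivisors R) ?_ ?_
  · rintro x ⟨n, rfl⟩
    exact mem_nonZeroDivisors_of_ne_zero (pow_ne_zero n hw.ne_zero)
  · intro r hr
    have hr0 : r ≠ 0 := nonZeroDivisors.ne_zero hr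
    obtain ⟨n, u, rfl⟩ := IsDiscreteValuationRing.eq_unit_mul_pow_irreducible hr0 hw
    rw [map_mul, map_pow]
    exact (u.isUnit.map _).mul ((IsLocalization.Away.algebraMap_isUnit w).pow n)

attribute [local instance] Polynomial.algebra in
/-- `R[X][1/w]` is a PID. -/
theorem isPrincipalIdealRing_away_C_uniformizer {w : R} (hw : Irreducible w) :
    IsPrincipalIdealRing (Localization.Away (C w : R[X])) := by
  haveI : IsFractionRing R (Localization.Away w) := isFractionRing_away_uniformizer hw
  letI : Field (Localization.Away w) := IsFractionRing.toField R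
  haveI h1 : IsLocalization (Submonoid.map (C : R →+* R[X]) (Submonoid.powers w))
      (Localization.Away w)[X] := Polynomial.isLocalization (Submonoid.powers w) _
  have hpow : Submonoid.map (C : R →+* R[X]) (Submonoid.powers w) =
      Submonoid.powers (C w : R[X]) := by
    rw [Submonoid.map_powers]
  rw [hpow] at h1
  let e : (Localization.Away w)[X] ≃ₐ[R[X]] Localization.Away (C w : R[X]) :=
    IsLocalization.algEquiv (Submonoid.powers (C w : R[X])) _ _
  exact IsPrincipalIdealRing.of_surjective e.toRingEquiv.toRingHom e.surjective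

/-- Positive integers are units in `R[X][1/w]` (characteristic zero). -/
theorem isUnit_natCast_away [CharZero R] {w : R} (hw : Irreducible w) (m : ℕ) (hm : m ≠ 0) :
    IsUnit (algebraMap R[X] (Localization.Away (C w : R[X])) (m : R[X])) := by
  have hm0 : (m : R) ≠ 0 := Nat.cast_ne_zero.mpr hm
  obtain ⟨n, u, hu⟩ := IsDiscreteValuationRing.eq_unit_mul_pow_irreducible hm0 hw
  have : (m : R[X]) = C (u : R) * (C w) ^ n := by
    rw [← C_pow, ← C_mul, ← hu]
    simp
  rw [this, map_mul, map_pow]
  exact ((u.isUnit.map C).map _).mul ((IsLocalization.Away.algebraMap_isUnit (C w)).pow n)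

theorem not_associated_X_sub_C_C (c w : R) : ¬ Associated (X - C c : R[X]) (C w) := by
  intro h
  have := degree_eq_degree_of_associated h
  rw [degree_X_sub_C] at this
  have h2 : (C w : R[X]).degree ≤ 0 := degree_C_le
  rw [← this] at h2
  exact absurd h2 (by norm_num)

theorem comap_eval_span_uniformizer (c w : R) :
    Ideal.comap (evalRingHom c) (Ideal.span {w}) = Ideal.span {(C w : R[X]), X - C c} := by
  ext f
  rw [Ideal.mem_comap, Ideal.mem_span_singleton, Ideal.mem_span_pair, coe_evalRingHom]
  constructor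
  · rintro ⟨r, hr⟩
    refine ⟨C r, f /ₘ (X - C c), ?_⟩
    have h1 := modByMonic_add_div f (X - C c)
    rw [modByMonic_X_sub_C_eq_C_eval, hr, C_mul] at h1
    linear_combination h1
  · rintro ⟨a, b, rfl⟩
    refine ⟨a.eval c, ?_⟩
    simp [mul_comm]

theorem span_C_X_sub_C_isMaximal {w : R} (hw : Irreducible w) (c : R) :
    (Ideal.span {(C w : R[X]), X - C c}).IsMaximal := by
  haveI := span_uniformizer_isMaximal hw
  rw [← comap_eval_span_uniformizer]
  exact Ideal.comap_isMaximal_of_surjective (evalRingHom c)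
    (fun r => ⟨C r, by simp⟩)

theorem isPrincipalIdealRing_quotient_X_sub_C (c : R) :
    IsPrincipalIdealRing (R[X] ⧸ Ideal.span {(X - C c : R[X])}) :=
  IsPrincipalIdealRing.of_surjective (quotientSpanXSubCAlgEquiv c).symm.toRingEquiv.toRingHom
    (quotientSpanXSubCAlgEquiv c).symm.surjective

theorem not_isUnit_sub_of_mem {w : R} (hw : Irreducible w) (c c' : R)
    (h : X - C c' ∈ Ideal.span {(C w : R[X]), X - C c}) : ¬ IsUnit (c - c') := by
  rw [← comap_eval_span_uniformizer, Ideal.mem_comap, coe_evalRingHom, eval_sub, eval_X,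
    eval_C, ← hw.maximalIdeal_eq] at h
  exact (mem_maximalIdeal _).mp h

/-- **A1 (instantiation `P = R[X]`)**, explicit form of
`Fermat.Agent.S18.B12.PolyInstStatement`. -/
theorem polyInst_explicit [CharZero R] (w : R) (hw : Irreducible w) :
    Prime (C w : R[X]) ∧
    IsPrincipalIdealRing (R[X] ⧸ Ideal.span {(C w : R[X])}) ∧
    IsPrincipalIdealRing (Localization.Away (C w : R[X])) ∧
    (∀ m : ℕ, m ≠ 0 → IsUnit (algebraMap R[X] (Localization.Away (C w : R[X])) (m : R[X]))) ∧
    ∀ c : R, Prime (X - C c : R[X]) ∧ ¬ Associated (X - C c : R[X]) (C w) ∧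
      (Ideal.span {(C w : R[X]), X - C c}).IsMaximal ∧
      IsPrincipalIdealRing (R[X] ⧸ Ideal.span {(X - C c : R[X])}) ∧
      ∀ c' : R, X - C c' ∈ Ideal.span {(C w : R[X]), X - C c} → ¬ IsUnit (c - c') :=
  ⟨prime_C_uniformizer hw, isPrincipalIdealRing_quotient_C_uniformizer hw,
    isPrincipalIdealRing_away_C_uniformizer hw, isUnit_natCast_away hw,
    fun c => ⟨prime_X_sub_C c, not_associated_X_sub_C_C c w, span_C_X_sub_C_isMaximal hw c,
      isPrincipalIdealRing_quotient_X_sub_C c, fun c' h => not_isUnit_sub_of_mem hw c c' h⟩⟩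

end

end Fermat.Agent.S18.B12.H693
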