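/-
S18 / Route K / b2, leaf P2' (helper693):  `SFLatticeStatement → SFIdemStatement`
(Mathlib-only explicit form; the wrapper for the frozen statements is in `Leaves.lean`).

Given an idempotent `ε ∈ L` with `g₀ • ε ∈ C`, the lattice `Ct := C + C ε` is a `Λ`-subalgebra
of `L`, finite and torsion-free over the PID `Λ`, hence free, of the same rank as `C`
(`C ⊆ Ct`, `g₀ • Ct ⊆ C`).  Apply `SFLatticeStatement` to `C ≤ Ct` and `x = ε`.
-/
import Mathlib

set_option autoImplicit false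
set_option linter.style.haveILetI false

namespace Fermat.Agent.S18.B12.H693

open Module

universe u v

section

variable {Λ : Type u} [CommRing Λ] [IsDomain Λ] [IsPrincipalIdealRing Λ]
variable {L : Type v} [CommRing L] [Algebra Λ L]

/-- The submodule `C + C ε`. -/
def adjSubmodule (C : Subalgebra Λ L) (ε : L) : Submodule Λ L :=
  Subalgebra.toSubmodule C ⊔ (Subalgebra.toSubmodule C).map (LinearMap.mulRight Λ ε)

theorem mem_adjSubmodule {C : Subalgebra Λ L} {ε x : L} :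
    x ∈ adjSubmodule C ε ↔ ∃ c ∈ C, ∃ c' ∈ C, c + c' * ε = x := by
  unfold adjSubmodule
  rw [Submodule.mem_sup]
  constructor
  · rintro ⟨c, hc, z, hz, rfl⟩
    obtain ⟨c', hc', rfl⟩ := (Submodule.mem_map).mp hz
    exact ⟨c, hc, c', hc', rfl⟩
  · rintro ⟨c, hc, c', hc', rfl⟩
    exact ⟨c, hc, c' * ε, Submodule.mem_map.mpr ⟨c', hc', rfl⟩, rfl⟩

/-- The subalgebra `C[ε] = C + C ε` for an idempotent `ε`. -/
def adjIdem (C : Subalgebra Λ L) (ε : L) (hε : ε * ε = ε) : Subalgebra Λ L :=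
  (adjSubmodule C ε).toSubalgebra
    (mem_adjSubmodule.mpr ⟨1, C.one_mem, 0, C.zero_mem, by simp⟩)
    (by
      intro x y hx hy
      obtain ⟨c₁, hc₁, c₁', hc₁', rfl⟩ := mem_adjSubmodule.mp hx
      obtain ⟨c₂, hc₂, c₂', hc₂', rfl⟩ := mem_adjSubmodule.mp hy
      refine mem_adjSubmodule.mpr ⟨c₁ * c₂, C.mul_mem hc₁ hc₂,
        c₁ * c₂' + c₁' * c₂ + c₁' * c₂', ?_, ?_⟩
      · exact C.add_mem (C.add_mem (C.mul_mem hc₁ hc₂') (C.mul_mem hc₁' hc₂))
          (C.mul_mem hc₁' hc₂')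
      · have : c₁' * ε * (c₂' * ε) = c₁' * c₂' * ε := by
          calc c₁' * ε * (c₂' * ε) = c₁' * c₂' * (ε * ε) := by ring
            _ = c₁' * c₂' * ε := by rw [hε]
        calc c₁ * c₂ + (c₁ * c₂' + c₁' * c₂ + c₁' * c₂') * ε
            = c₁ * c₂ + c₁ * (c₂' * ε) + c₁' * ε * c₂ + c₁' * c₂' * ε := by ring
          _ = c₁ * c₂ + c₁ * (c₂' * ε) + c₁' * ε * c₂ + c₁' * ε * (c₂' * ε) := by rw [this]
          _ = (c₁ + c₁' * ε) * (c₂ + c₂' * ε) := by ring)

theorem mem_adjIdem {C : Subalgebra Λ L} {ε : L} {hε : ε * ε = ε} {x : L} :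
    x ∈ adjIdem C ε hε ↔ ∃ c ∈ C, ∃ c' ∈ C, c + c' * ε = x :=
  mem_adjSubmodule

theorem le_adjIdem (C : Subalgebra Λ L) (ε : L) (hε : ε * ε = ε) : C ≤ adjIdem C ε hε :=
  fun c hc => mem_adjIdem.mpr ⟨c, hc, 0, C.zero_mem, by simp⟩

theorem self_mem_adjIdem (C : Subalgebra Λ L) (ε : L) (hε : ε * ε = ε) : ε ∈ adjIdem C ε hε :=
  mem_adjIdem.mpr ⟨0, C.zero_mem, 1, C.one_mem, by simp⟩

/-- **P2'** from **P2** (explicit form): if the two-lattice statement holds for `C` and every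
free overlattice `Ct` of the same rank, then every idempotent `ε` with `g₀ • ε ∈ C` (`g₀ ≠ 0`)
satisfies `g • ε ∈ C` for some `g ∉ (t)`. -/
theorem exists_smul_idem_mem_of_lattice [Module.IsTorsionFree Λ L] (t : Λ)
    (C : Subalgebra Λ L) (n : ℕ) (b : Module.Basis (Fin n) Λ C)
    (hP2 : ∀ Ct : Subalgebra Λ L, C ≤ Ct → Module.Basis (Fin n) Λ Ct →
      ∀ x ∈ Ct, ∃ g : Λ, ¬ t ∣ g ∧ g • x ∈ C)
    (ε : L) (hε : ε * ε = ε) (hg : ∃ g₀ : Λ, g₀ ≠ 0 ∧ g₀ • ε ∈ C) :
    ∃ g : Λ, ¬ t ∣ g ∧ g • ε ∈ C := by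
  obtain ⟨g₀, hg₀, hg₀ε⟩ := hg
  classical
  set Ct : Subalgebra Λ L := adjIdem C ε hε with hCt
  have hle : C ≤ Ct := le_adjIdem C ε hε
  -- finiteness
  haveI hfinC : Module.Finite Λ C := Module.Finite.of_basis b
  have hfgC : (Subalgebra.toSubmodule C).FG := Module.Finite.iff_fg.mp hfinC
  have hfg : (adjSubmodule C ε).FG := hfgC.sup (hfgC.map _)
  haveI hfinCt : Module.Finite Λ Ct := Module.Finite.iff_fg.mpr hfg
  haveI hfreeCt : Module.Free Λ Ct := Module.free_of_finite_type_torsion_free'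
  -- rank
  have hrankC : finrank Λ C = n := by
    rw [finrank_eq_card_basis b, Fintype.card_fin]
  have h1 : finrank Λ C ≤ finrank Λ Ct := by
    refine LinearMap.finrank_le_finrank_of_injective
      (f := (Subalgebra.inclusion hle).toLinearMap) ?_
    exact Subalgebra.inclusion_injective hle
  have hsmul : ∀ x : Ct, g₀ • (x : L) ∈ C := by
    rintro ⟨x, hx⟩
    obtain ⟨c, hc, c', hc', rfl⟩ := mem_adjIdem.mp hx
    have : g₀ • (c + c' * ε) = g₀ • c + c' * (g₀ • ε) := by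
      rw [smul_add, mul_smul_comm]
    rw [this]
    exact C.add_mem (C.smul_mem hc g₀) (C.mul_mem hc' hg₀ε)
  let φ : Ct →ₗ[Λ] C :=
    { toFun := fun x => ⟨g₀ • (x : L), hsmul x⟩
      map_add' := fun x y => by
        apply Subtype.ext
        simp [smul_add]
      map_smul' := fun r x => by
        apply Subtype.ext
        simp [smul_comm g₀ r] }
  have hφ : Function.Injective φ := by
    intro x x' hxx'
    have h2 : g₀ • (x : L) = g₀ • (x' : L) := congr_arg Subtype.val hxx'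
    exact Subtype.ext (smul_right_injective L hg₀ h2)
  have h2 : finrank Λ Ct ≤ finrank Λ C :=
    LinearMap.finrank_le_finrank_of_injective hφ
  have hrankCt : finrank Λ Ct = n := by omega
  let bt : Module.Basis (Fin n) Λ Ct := Module.finBasisOfFinrankEq Λ Ct hrankCt
  exact hP2 Ct hle bt ε (self_mem_adjIdem C ε hε)

end

end Fermat.Agent.S18.B12.H693
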