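/-
S18 / Route K / b2, assembly piece A4 = `UFDStepStatement` (helper693).  Mathlib-only.

If every prime factor of `D ≠ 0` lying in the prime ideal `𝔪` is associated to `p`, then
`D = p ^ a * D₁` with `D₁ ∉ 𝔪`.
-/
import Mathlib

set_option autoImplicit false

namespace Fermat.Agent.S18.B12.H693

/-- In a UFD, a nonzero element of a prime ideal has a prime factor in that ideal. -/
theorem exists_prime_dvd_mem_of_mem {P : Type*} [CommRing P] [IsDomain P]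
    [UniqueFactorizationMonoid P] (𝔪 : Ideal P) [h𝔪 : 𝔪.IsPrime] (x : P) (hx0 : x ≠ 0)
    (hx : x ∈ 𝔪) : ∃ π : P, Prime π ∧ π ∣ x ∧ π ∈ 𝔪 := by
  induction x using UniqueFactorizationMonoid.induction_on_prime with
  | h₁ => exact absurd rfl hx0
  | h₂ x hu =>
    exact absurd (𝔪.eq_top_of_isUnit_mem hx hu) h𝔪.ne_top
  | h₃ a q ha hq ih =>
    rcases h𝔪.mem_or_mem hx with h | h
    · exact ⟨q, hq, dvd_mul_right q a, h⟩
    · obtain ⟨π, hπ, hπa, hπm⟩ := ih ha h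
      exact ⟨π, hπ, hπa.mul_left q, hπm⟩

/-- **A4 (UFD step)**, explicit form of `Fermat.Agent.S18.B12.UFDStepStatement`. -/
theorem exists_eq_pow_mul_notMem {P : Type*} [CommRing P] [IsDomain P]
    [UniqueFactorizationMonoid P] (𝔪 : Ideal P) [𝔪.IsPrime] (p : P) (hp : Prime p) (D : P)
    (hD : D ≠ 0) (h : ∀ π : P, Prime π → π ∣ D → π ∈ 𝔪 → Associated π p) :
    ∃ (a : ℕ) (D₁ : P), D = p ^ a * D₁ ∧ D₁ ∉ 𝔪 := by
  obtain ⟨a, D₁, hD₁, hfac⟩ := WfDvdMonoid.max_power_factor hD hp.irreducible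
  refine ⟨a, D₁, hfac, fun hmem => ?_⟩
  have hD₁0 : D₁ ≠ 0 := by
    rintro rfl
    exact hD₁ (dvd_zero p)
  obtain ⟨π, hπ, hπD₁, hπm⟩ := exists_prime_dvd_mem_of_mem 𝔪 D₁ hD₁0 hmem
  have hπD : π ∣ D := hfac ▸ hπD₁.mul_left (p ^ a)
  exact hD₁ ((h π hπ hπD hπm).symm.dvd.trans hπD₁)

end Fermat.Agent.S18.B12.H693
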